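import Fermat.Agent.MUL.Orig.S23.Defs
import Fermat.Agent.MUL.Orig.S28.Residue

/-!
# S23, step A: level one forms are spanned by forms with integral q-expansion
Owner: helper40.

Every level one modular form is a `ℂ`-linear combination of monomials `E₄ ^ a * E₆ ^ b`
(strong induction on the weight, using `CuspForm.discriminantEquiv` and
`Δ = (E₄³ - E₆²) / 1728`), and these monomials have integral q-expansions.
-/

set_option autoImplicit false

open UpperHalfPlane ModularForm ModularFormClass MatrixGroups EisensteinSeries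

namespace Fermat.Agent.S23

/-- A power series over `ℂ` all of whose coefficients are integers. -/
def IsIntSeries (p : PowerSeries ℂ) : Prop := ∀ n : ℕ, ∃ m : ℤ, p.coeff n = (m : ℂ)

lemma isIntSeries_one : IsIntSeries 1 := by
  intro n
  by_cases h : n = 0
  · exact ⟨1, by simp [h]⟩
  · exact ⟨0, by simp [PowerSeries.coeff_one, h]⟩

lemma IsIntSeries.mul {p q : PowerSeries ℂ} (hp : IsIntSeries p) (hq : IsIntSeries q) :
    IsIntSeries (p * q) := by
  intro n
  rw [PowerSeries.coeff_mul]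
  choose a ha using hp
  choose b hb using hq
  refine ⟨∑ x ∈ Finset.HasAntidiagonal.antidiagonal n, a x.1 * b x.2, ?_⟩
  push_cast
  exact Finset.sum_congr rfl fun x _ => by rw [ha, hb]

lemma IsIntSeries.pow {p : PowerSeries ℂ} (hp : IsIntSeries p) (n : ℕ) : IsIntSeries (p ^ n) := by
  induction n with
  | zero => simpa using isIntSeries_one
  | succ n ih => rw [pow_succ]; exact ih.mul hp

lemma isIntSeries_E4 : IsIntSeries (qExpansion 1 E₄) := by
  intro n
  rw [E_qExpansion_coeff _ ⟨2, rfl⟩]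
  by_cases h : n = 0
  · exact ⟨1, by simp [h]⟩
  · refine ⟨240 * (ArithmeticFunction.sigma 3 n : ℤ), ?_⟩
    simp only [h, if_false]
    norm_num [show bernoulli 4 = -1 / 30 by decide +kernel]

lemma isIntSeries_E6 : IsIntSeries (qExpansion 1 E₆) := by
  intro n
  rw [E_qExpansion_coeff _ ⟨3, rfl⟩]
  by_cases h : n = 0
  · exact ⟨1, by simp [h]⟩
  · refine ⟨-504 * (ArithmeticFunction.sigma 5 n : ℤ), ?_⟩
    simp only [h, if_false]
    norm_num [show bernoulli 6 = 1 / 42 by decide +kernel]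


/-- The monomial `E₄ ^ a * E₆ ^ b` as a level one modular form of weight `k = 4a + 6b`. -/
noncomputable def monoForm (k : ℤ) (a b : ℕ) (h : (4 * a + 6 * b : ℤ) = k) : ModularForm 𝒮ℒ k :=
  ModularForm.mcast (by rw [← h]; ring) ((E₄.pow a).mul (E₆.pow b))

@[simp] lemma monoForm_apply (k : ℤ) (a b : ℕ) (h : (4 * a + 6 * b : ℤ) = k) (z : ℍ) :
    monoForm k a b h z = E₄ z ^ a * E₆ z ^ b := by
  simp [monoForm, ModularForm.mcast_apply]

lemma coe_monoForm (k : ℤ) (a b : ℕ) (h : (4 * a + 6 * b : ℤ) = k) :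
    (monoForm k a b h : ℍ → ℂ) = (E₄ : ℍ → ℂ) ^ a * (E₆ : ℍ → ℂ) ^ b := by
  funext z; simp

lemma qExpansion_monoForm (k : ℤ) (a b : ℕ) (h : (4 * a + 6 * b : ℤ) = k) :
    qExpansion 1 (monoForm k a b h) = qExpansion 1 E₄ ^ a * qExpansion 1 E₆ ^ b := by
  have h1 : (monoForm k a b h : ℍ → ℂ) = ((E₄.pow a).mul (E₆.pow b) : ℍ → ℂ) := rfl
  rw [h1, ModularForm.qExpansion_mul one_pos one_mem_strictPeriods_SL,
    ModularForm.qExpansion_pow one_pos one_mem_strictPeriods_SL,
    ModularForm.qExpansion_pow one_pos one_mem_strictPeriods_SL]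

lemma isIntSeries_monoForm (k : ℤ) (a b : ℕ) (h : (4 * a + 6 * b : ℤ) = k) :
    IsIntSeries (qExpansion 1 (monoForm k a b h)) := by
  rw [qExpansion_monoForm]
  exact (isIntSeries_E4.pow a).mul (isIntSeries_E6.pow b)

lemma qExpansion_monoForm_coeff_zero (k : ℤ) (a b : ℕ) (h : (4 * a + 6 * b : ℤ) = k) :
    (qExpansion 1 (monoForm k a b h)).coeff 0 = 1 := by
  rw [qExpansion_monoForm]
  simp [PowerSeries.coeff_zero_eq_constantCoeff, map_mul, map_pow,
    ← PowerSeries.coeff_zero_eq_constantCoeff_apply,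
    E_qExpansion_coeff_zero _ ⟨2, rfl⟩, E_qExpansion_coeff_zero _ ⟨3, rfl⟩]

/-- The set of monomials `E₄ ^ a * E₆ ^ b` of weight `k`. -/
def monoSet (k : ℤ) : Set (ModularForm 𝒮ℒ k) :=
  {g | ∃ (a b : ℕ) (h : (4 * a + 6 * b : ℤ) = k), g = monoForm k a b h}

/-- Multiplication by the discriminant, as a linear map `M_{k-12} → M_k`. -/
noncomputable def mulDelta (k : ℤ) : ModularForm 𝒮ℒ (k - 12) →ₗ[ℂ] ModularForm 𝒮ℒ k :=
  CuspForm.toModularFormₗ.comp (CuspForm.discriminantEquiv (k := k)).symm.toLinearMap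

lemma mulDelta_apply (k : ℤ) (g : ModularForm 𝒮ℒ (k - 12)) (z : ℍ) :
    mulDelta k g z = ModularForm.discriminant z * g z := rfl

lemma mulDelta_monoForm (k : ℤ) (a b : ℕ) (h : (4 * a + 6 * b : ℤ) = k - 12) :
    mulDelta k (monoForm (k - 12) a b h) =
      (1 / 1728 : ℂ) • (monoForm k (a + 3) b (by push_cast; linarith) -
        monoForm k a (b + 2) (by push_cast; linarith)) := by
  ext z
  rw [mulDelta_apply, monoForm_apply, discriminant_eq_E₄_cube_sub_E₆_sq]
  simp only [smul_apply, sub_apply, monoForm_apply, smul_eq_mul]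
  ring

lemma mulDelta_mem_span (k : ℤ) (g : ModularForm 𝒮ℒ (k - 12))
    (hg : g ∈ Submodule.span ℂ (monoSet (k - 12))) :
    mulDelta k g ∈ Submodule.span ℂ (monoSet k) := by
  have : Submodule.span ℂ (monoSet (k - 12)) ≤
      (Submodule.span ℂ (monoSet k)).comap (mulDelta k) := by
    rw [Submodule.span_le]
    rintro _ ⟨a, b, h, rfl⟩
    rw [SetLike.mem_coe, Submodule.mem_comap, mulDelta_monoForm]
    refine Submodule.smul_mem _ _ (Submodule.sub_mem _ ?_ ?_)
    · exact Submodule.subset_span ⟨a + 3, b, _, rfl⟩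
    · exact Submodule.subset_span ⟨a, b + 2, _, rfl⟩
  exact this hg


lemma exists_monoForm_of_even {k : ℤ} (hk : 4 ≤ k) (hk2 : Even k) :
    ∃ (a b : ℕ), (4 * a + 6 * b : ℤ) = k := by
  obtain ⟨m, hm⟩ := hk2
  rcases Int.even_or_odd m with ⟨r, hr⟩ | ⟨r, hr⟩
  · refine ⟨r.toNat, 0, ?_⟩
    have : 0 ≤ r := by omega
    rw [Int.toNat_of_nonneg this]; push_cast; omega
  · refine ⟨(r - 1).toNat, 1, ?_⟩
    have : 0 ≤ r - 1 := by omega
    rw [Int.toNat_of_nonneg this]; push_cast; omega

/-- Every level one modular form is a `ℂ`-linear combination of monomials `E₄ ^ a * E₆ ^ b`. -/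
theorem mem_span_monoSet : ∀ (n : ℕ) (k : ℤ), k.toNat = n → ∀ f : ModularForm 𝒮ℒ k,
    f ∈ Submodule.span ℂ (monoSet k) := by
  intro n
  induction n using Nat.strong_induction_on with
  | _ n ih =>
  intro k hkn f
  rcases lt_or_ge k 0 with hneg | hnn
  · have : f = 0 := rank_zero_iff_forall_zero.mp (levelOne_neg_weight_rank_zero hneg) f
    rw [this]; exact Submodule.zero_mem _
  rcases Int.even_or_odd k with hev | hodd
  swap
  · rw [ModularForm.levelOne_odd_weight_eq_zero hodd f]; exact Submodule.zero_mem _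
  rcases lt_or_ge k 4 with hlt | hge
  · -- k = 0 or k = 2
    have hk02 : k = 0 ∨ k = 2 := by
      obtain ⟨m, hm⟩ := hev
      omega
    rcases hk02 with rfl | rfl
    · obtain ⟨c, hc⟩ := levelOne_weight_zero_const f
      have hf : f = c • monoForm 0 0 0 (by norm_num) := by
        ext z
        rw [hc]
        simp
      rw [hf]
      exact Submodule.smul_mem _ _ (Submodule.subset_span ⟨0, 0, _, rfl⟩)
    · have : f = 0 := rank_zero_iff_forall_zero.mp levelOne_weight_two_rank_zero f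
      rw [this]; exact Submodule.zero_mem _
  · obtain ⟨a, b, hab⟩ := exists_monoForm_of_even hge hev
    set M := monoForm k a b hab with hM
    set c := (qExpansion 1 f).coeff 0 with hc
    have h0 : (qExpansion 1 ((f - c • M : ModularForm 𝒮ℒ k) : ℍ → ℂ)).coeff 0 = 0 := by
      rw [FunLike.coe_sub, ModularForm.qExpansion_sub one_pos one_mem_strictPeriods_SL,
        FunLike.coe_smul, ModularForm.qExpansion_smul one_pos one_mem_strictPeriods_SL, map_sub,
        PowerSeries.coeff_smul, qExpansion_monoForm_coeff_zero, smul_eq_mul, mul_one, sub_self]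
    set g := CuspForm.discriminantEquiv (toCuspForm (f - c • M) h0) with hg
    have hgmem : g ∈ Submodule.span ℂ (monoSet (k - 12)) :=
      ih (k - 12).toNat (by omega) (k - 12) rfl g
    have hf : f = c • M + mulDelta k g := by
      ext z
      rw [add_apply, smul_apply, mulDelta_apply, hg, CuspForm.discriminantEquiv_apply,
        toCuspForm_apply, sub_apply, smul_apply,
        mul_div_cancel₀ _ (discriminant_ne_zero z)]
      ring
    rw [hf]
    exact Submodule.add_mem _ (Submodule.smul_mem _ _ (Submodule.subset_span ⟨a, b, _, rfl⟩))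
      (mulDelta_mem_span k g hgmem)

theorem mem_span_monoSet' (k : ℤ) (f : ModularForm 𝒮ℒ k) :
    f ∈ Submodule.span ℂ (monoSet k) :=
  mem_span_monoSet _ k rfl f


lemma IsIntSeries.mem_ZSer {p : PowerSeries ℂ} (hp : IsIntSeries p) : p ∈ ZSer := by
  choose m hm using hp
  refine ⟨PowerSeries.mk m, ?_⟩
  ext n
  simp [hm]

lemma isIntSeries_of_mem_ZSer {p : PowerSeries ℂ} (hp : p ∈ ZSer) : IsIntSeries p := by
  obtain ⟨P, rfl⟩ := hp
  intro n
  exact ⟨P.coeff n, by simp⟩

lemma monoSet_subset_ZSer (k : ℤ) :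
    monoSet k ⊆ {G : ModularForm 𝒮ℒ k | qExpansion 1 G ∈ ZSer} := by
  rintro _ ⟨a, b, h, rfl⟩
  exact (isIntSeries_monoForm k a b h).mem_ZSer

/-- Step A. -/
theorem levelOne_span_ZSer (k : ℤ) :
    Submodule.span ℂ {G : ModularForm 𝒮ℒ k | qExpansion 1 G ∈ ZSer} = ⊤ := by
  rw [eq_top_iff]
  intro f _
  exact Submodule.span_mono (monoSet_subset_ZSer k) (mem_span_monoSet' k f)

end Fermat.Agent.S23
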