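import Mathlib
import Fermat.Prelude.Def_CuspForm_IntegralStructure

/-!
# S23: shared definitions

Route: see NOTES / board note "S23 plan".  All files of this development live in
`Fermat/Agent/S23/` and use the namespace `Fermat.Agent.S23`.
-/

set_option autoImplicit false

namespace Fermat.Agent.S23

open UpperHalfPlane ModularForm MatrixGroups

/-- `Γ₀(N)` as a subgroup of `GL(2, ℝ)`; this is what the coercion in
`CuspForm (CongruenceSubgroup.Gamma0 N) k` unfolds to. -/
abbrev G0 (N : ℕ) : Subgroup (GL (Fin 2) ℝ) :=
  (CongruenceSubgroup.Gamma0 N).map (Matrix.SpecialLinearGroup.mapGL ℝ)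

/-- Complex power series all of whose coefficients are integers. -/
def ZSer : Set (PowerSeries ℂ) := Set.range (PowerSeries.map (Int.castRingHom ℂ))

/-- Complex power series all of whose coefficients are rational. -/
def QSer : Set (PowerSeries ℂ) := Set.range (PowerSeries.map (algebraMap ℚ ℂ))

/-- `g` is the underlying function of a modular form of weight `k` for `Γ`. -/
def IsMF (Γ : Subgroup (GL (Fin 2) ℝ)) (k : ℤ) (g : ℍ → ℂ) : Prop :=
  ∃ G : ModularForm Γ k, ⇑G = g

/-- `g` is the underlying function of a cusp form of weight `k` for `Γ`. -/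
def IsCF (Γ : Subgroup (GL (Fin 2) ℝ)) (k : ℤ) (g : ℍ → ℂ) : Prop :=
  ∃ G : CuspForm Γ k, ⇑G = g

end Fermat.Agent.S23
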