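import Fermat.Agent.MUL.Orig.S23.Defs

/-!
# S23: small API for `IsMF`, `IsCF` and for q-expansions of unbundled functions
-/

set_option autoImplicit false

namespace Fermat.Agent.S23

open UpperHalfPlane ModularForm MatrixGroups

variable {Γ Γ' : Subgroup (GL (Fin 2) ℝ)} {k k₁ k₂ : ℤ} {f g : ℍ → ℂ}

theorem IsMF.of (G : ModularForm Γ k) : IsMF Γ k G := ⟨G, rfl⟩

theorem IsCF.of (G : CuspForm Γ k) : IsCF Γ k G := ⟨G, rfl⟩

theorem IsMF.cast (h : k₁ = k₂) (hf : IsMF Γ k₁ f) : IsMF Γ k₂ f := h ▸ hf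

theorem IsCF.cast (h : k₁ = k₂) (hf : IsCF Γ k₁ f) : IsCF Γ k₂ f := h ▸ hf

theorem IsMF.zero : IsMF Γ k 0 := ⟨0, rfl⟩

theorem IsMF.add (hf : IsMF Γ k f) (hg : IsMF Γ k g) : IsMF Γ k (f + g) := by
  obtain ⟨F, rfl⟩ := hf
  obtain ⟨G, rfl⟩ := hg
  exact ⟨F + G, rfl⟩

theorem IsMF.neg (hf : IsMF Γ k f) : IsMF Γ k (-f) := by
  obtain ⟨F, rfl⟩ := hf
  exact ⟨-F, rfl⟩

theorem IsMF.sub (hf : IsMF Γ k f) (hg : IsMF Γ k g) : IsMF Γ k (f - g) := by
  obtain ⟨F, rfl⟩ := hf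
  obtain ⟨G, rfl⟩ := hg
  exact ⟨F - G, rfl⟩

theorem IsMF.smul [Γ.HasDetOne] (c : ℂ) (hf : IsMF Γ k f) : IsMF Γ k (c • f) := by
  obtain ⟨F, rfl⟩ := hf
  exact ⟨c • F, rfl⟩

theorem IsMF.mul [Γ.HasDetPlusMinusOne] (hf : IsMF Γ k₁ f) (hg : IsMF Γ k₂ g) :
    IsMF Γ (k₁ + k₂) (f * g) := by
  obtain ⟨F, rfl⟩ := hf
  obtain ⟨G, rfl⟩ := hg
  exact ⟨F.mul G, rfl⟩

theorem IsMF.one [Γ.HasDetPlusMinusOne] : IsMF Γ 0 1 := ⟨1, rfl⟩

theorem IsMF.pow [Γ.HasDetPlusMinusOne] (hf : IsMF Γ k f) (n : ℕ) : IsMF Γ (k * n) (f ^ n) := by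
  induction n with
  | zero => simpa using (IsMF.one (Γ := Γ))
  | succ n ih =>
    have := ih.mul hf
    rw [pow_succ]
    exact this.cast (by push_cast; ring)

theorem IsMF.sum {ι : Type*} (s : Finset ι) (F : ι → ℍ → ℂ) (h : ∀ i ∈ s, IsMF Γ k (F i)) :
    IsMF Γ k (∑ i ∈ s, F i) := by
  classical
  induction s using Finset.induction_on with
  | empty => simpa using (IsMF.zero (Γ := Γ) (k := k))
  | insert a s ha ih =>
    rw [Finset.sum_insert ha]
    exact (h a (Finset.mem_insert_self a s)).add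
      (ih fun i hi => h i (Finset.mem_insert_of_mem hi))

/-- Restriction of a modular form to a smaller group. -/
theorem IsMF.mono (h : Γ' ≤ Γ) (hf : IsMF Γ k f) : IsMF Γ' k f := by
  obtain ⟨F, rfl⟩ := hf
  exact ⟨{ toFun := F
           slash_action_eq' := fun γ hγ => F.slash_action_eq' γ (h hγ)
           holo' := F.holo'
           bdd_at_cusps' := fun hc => F.bdd_at_cusps' (hc.mono h) }, rfl⟩

theorem IsCF.isMF (hf : IsCF Γ k f) : IsMF Γ k f := by
  obtain ⟨F, rfl⟩ := hf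
  exact ⟨ModularFormClass.modularForm F, rfl⟩

theorem IsCF.zero : IsCF Γ k 0 := ⟨0, rfl⟩

theorem IsCF.add (hf : IsCF Γ k f) (hg : IsCF Γ k g) : IsCF Γ k (f + g) := by
  obtain ⟨F, rfl⟩ := hf
  obtain ⟨G, rfl⟩ := hg
  exact ⟨F + G, rfl⟩

theorem IsCF.neg (hf : IsCF Γ k f) : IsCF Γ k (-f) := by
  obtain ⟨F, rfl⟩ := hf
  exact ⟨-F, rfl⟩

theorem IsCF.smul [Γ.HasDetOne] (c : ℂ) (hf : IsCF Γ k f) : IsCF Γ k (c • f) := by
  obtain ⟨F, rfl⟩ := hf
  exact ⟨c • F, rfl⟩

/-! ### q-analytic functions -/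

/-- `f` has an analytic cusp function at `q = 0` (for the period `1`). -/
def QA (f : ℍ → ℂ) : Prop := AnalyticAt ℂ (cuspFunction 1 f) 0

theorem IsMF.qa (h1 : (1 : ℝ) ∈ Γ.strictPeriods) (hf : IsMF Γ k f) : QA f := by
  obtain ⟨F, rfl⟩ := hf
  exact ModularFormClass.analyticAt_cuspFunction_zero F one_pos h1

theorem QA.add (hf : QA f) (hg : QA g) : QA (f + g) := by
  unfold QA at *
  rw [cuspFunction_add hf.continuousAt hg.continuousAt]
  exact hf.add hg

theorem QA.mul (hf : QA f) (hg : QA g) : QA (f * g) := by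
  unfold QA at *
  rw [cuspFunction_mul hf.continuousAt hg.continuousAt]
  exact hf.mul hg

theorem QA.smul (c : ℂ) (hf : QA f) : QA (c • f) := by
  unfold QA at *
  rw [cuspFunction_smul hf.continuousAt]
  exact hf.const_smul

theorem QA.neg (hf : QA f) : QA (-f) := by
  unfold QA at *
  rw [cuspFunction_neg hf.continuousAt]
  exact hf.neg

theorem QA.sub (hf : QA f) (hg : QA g) : QA (f - g) := by
  rw [sub_eq_add_neg]
  exact hf.add hg.neg

theorem QA.zero : QA 0 := by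
  have : cuspFunction 1 (0 : ℍ → ℂ) = 0 := by
    simpa [cuspFunction, Function.Periodic.cuspFunction]
      using! (tendsto_const_nhds.mono_left nhdsWithin_le_nhds).limUnder_eq
  unfold QA
  rw [this]
  exact analyticAt_const

theorem QA.one : QA 1 := by
  have h1 : cuspFunction 1 (1 : ℍ → ℂ) = 1 := by
    ext q
    rcases eq_or_ne q 0 with rfl | hq
    · simpa [cuspFunction, Function.Periodic.cuspFunction] using! tendsto_const_nhds.limUnder_eq
    · simp [cuspFunction, Function.Periodic.cuspFunction_eq_of_nonzero 1 _ hq]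
  unfold QA
  rw [h1]
  exact analyticAt_const

theorem QA.pow (hf : QA f) (n : ℕ) : QA (f ^ n) := by
  induction n with
  | zero => simpa using QA.one
  | succ n ih => rw [pow_succ]; exact ih.mul hf

theorem QA.sum {ι : Type*} (s : Finset ι) (F : ι → ℍ → ℂ) (h : ∀ i ∈ s, QA (F i)) :
    QA (∑ i ∈ s, F i) := by
  classical
  induction s using Finset.induction_on with
  | empty => simpa using QA.zero
  | insert a s ha ih =>
    rw [Finset.sum_insert ha]
    exact (h a (Finset.mem_insert_self a s)).add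
      (ih fun i hi => h i (Finset.mem_insert_of_mem hi))

theorem QA.qExpansion_add (hf : QA f) (hg : QA g) :
    qExpansion 1 (f + g) = qExpansion 1 f + qExpansion 1 g :=
  UpperHalfPlane.qExpansion_add hf hg

theorem QA.qExpansion_mul (hf : QA f) (hg : QA g) :
    qExpansion 1 (f * g) = qExpansion 1 f * qExpansion 1 g :=
  UpperHalfPlane.qExpansion_mul hf hg

theorem QA.qExpansion_smul (c : ℂ) (hf : QA f) :
    qExpansion 1 (c • f) = c • qExpansion 1 f :=
  UpperHalfPlane.qExpansion_smul hf c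

theorem QA.qExpansion_neg (hf : QA f) : qExpansion 1 (-f) = -qExpansion 1 f :=
  UpperHalfPlane.qExpansion_neg hf

theorem QA.qExpansion_pow (hf : QA f) (n : ℕ) :
    qExpansion 1 (f ^ n) = qExpansion 1 f ^ n := by
  induction n with
  | zero => simpa using UpperHalfPlane.qExpansion_one 1
  | succ n ih => rw [pow_succ, (hf.pow n).qExpansion_mul hf, ih, pow_succ]

theorem QA.qExpansion_sum {ι : Type*} (s : Finset ι) (F : ι → ℍ → ℂ) (h : ∀ i ∈ s, QA (F i)) :
    qExpansion 1 (∑ i ∈ s, F i) = ∑ i ∈ s, qExpansion 1 (F i) := by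
  classical
  induction s using Finset.induction_on with
  | empty => simpa using UpperHalfPlane.qExpansion_zero 1
  | insert a s ha ih =>
    rw [Finset.sum_insert ha, Finset.sum_insert ha,
      (h a (Finset.mem_insert_self a s)).qExpansion_add
        (QA.sum s F fun i hi => h i (Finset.mem_insert_of_mem hi)),
      ih fun i hi => h i (Finset.mem_insert_of_mem hi)]

/-! ### The groups -/

theorem one_mem_strictPeriods_G0 (N : ℕ) : (1 : ℝ) ∈ (G0 N).strictPeriods := by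
  rw [show G0 N = ((CongruenceSubgroup.Gamma0 N : Subgroup SL(2, ℤ)) : Subgroup (GL (Fin 2) ℝ))
    from rfl, CongruenceSubgroup.strictPeriods_Gamma0]
  exact AddSubgroup.mem_zmultiples 1

theorem one_mem_strictPeriods_SL : (1 : ℝ) ∈ (𝒮ℒ).strictPeriods := by simp

theorem G0_le_SL (N : ℕ) : G0 N ≤ 𝒮ℒ := by
  rintro _ ⟨γ, -, rfl⟩
  exact ⟨γ, rfl⟩

end Fermat.Agent.S23
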