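import Mathlib
import Fermat.Agent.MUL.Orig.S28.UnitArith

/-!
# S23, step D (converse), part 5: `q`-expansions of polynomial expressions

A small calculus for functions on `ℍ` that are `1`-periodic, holomorphic and bounded at `i∞`
("good" functions): they are closed under sums and products, and `qExpansion 1` is a ring
homomorphism on them, injective.
-/

namespace Fermat.Agent.S23Converse

open Filter Topology Set Function UpperHalfPlane ModularForm
open scoped Manifold MatrixGroups

/-- `1`-periodic, holomorphic and bounded at `i∞`. -/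
structure IsGood (f : ℍ → ℂ) : Prop where
  periodic : Periodic (f ∘ ofComplex) (1 : ℝ)
  holo : MDiff f
  bdd : IsBoundedAtImInfty f

namespace IsGood

variable {f g : ℍ → ℂ}

lemma analyticAt (hf : IsGood f) : AnalyticAt ℂ (cuspFunction 1 f) 0 :=
  analyticAt_cuspFunction_zero one_pos hf.periodic hf.holo hf.bdd

lemma zero : IsGood (0 : ℍ → ℂ) where
  periodic := fun _ => rfl
  holo := mdifferentiable_const
  bdd := Filter.const_boundedAtFilter atImInfty (0 : ℂ)

lemma one : IsGood (1 : ℍ → ℂ) where
  periodic := fun _ => rfl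
  holo := mdifferentiable_const
  bdd := Filter.const_boundedAtFilter atImInfty (1 : ℂ)

lemma add (hf : IsGood f) (hg : IsGood g) : IsGood (f + g) where
  periodic := by
    have : (f + g) ∘ ofComplex = (f ∘ ofComplex) + (g ∘ ofComplex) := rfl
    rw [this]
    exact hf.periodic.add hg.periodic
  holo := hf.holo.add hg.holo
  bdd := hf.bdd.add hg.bdd

lemma mul (hf : IsGood f) (hg : IsGood g) : IsGood (f * g) where
  periodic := by
    have : (f * g) ∘ ofComplex = (f ∘ ofComplex) * (g ∘ ofComplex) := rfl
    rw [this]
    exact hf.periodic.mul hg.periodic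
  holo := hf.holo.mul hg.holo
  bdd := hf.bdd.mul hg.bdd

lemma pow (hf : IsGood f) (n : ℕ) : IsGood (f ^ n) := by
  induction n with
  | zero => simpa using one
  | succ n ih => rw [pow_succ]; exact ih.mul hf

lemma sum {ι : Type*} (s : Finset ι) {F : ι → ℍ → ℂ} (hF : ∀ i ∈ s, IsGood (F i)) :
    IsGood (∑ i ∈ s, F i) := by
  classical
  induction s using Finset.induction_on with
  | empty => simpa using zero
  | insert i s hi ih =>
    rw [Finset.sum_insert hi]
    exact (hF i (Finset.mem_insert_self i s)).add
      (ih fun j hj => hF j (Finset.mem_insert_of_mem hj))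

lemma qExpansion_add (hf : IsGood f) (hg : IsGood g) :
    qExpansion 1 (f + g) = qExpansion 1 f + qExpansion 1 g :=
  UpperHalfPlane.qExpansion_add hf.analyticAt hg.analyticAt

lemma qExpansion_mul (hf : IsGood f) (hg : IsGood g) :
    qExpansion 1 (f * g) = qExpansion 1 f * qExpansion 1 g :=
  UpperHalfPlane.qExpansion_mul hf.analyticAt hg.analyticAt

lemma qExpansion_pow (hf : IsGood f) (n : ℕ) :
    qExpansion 1 (f ^ n) = qExpansion 1 f ^ n := by
  induction n with
  | zero => simpa using UpperHalfPlane.qExpansion_one 1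
  | succ n ih => rw [pow_succ, pow_succ, (hf.pow n).qExpansion_mul hf, ih]

lemma qExpansion_sum {ι : Type*} (s : Finset ι) {F : ι → ℍ → ℂ} (hF : ∀ i ∈ s, IsGood (F i)) :
    qExpansion 1 (∑ i ∈ s, F i) = ∑ i ∈ s, qExpansion 1 (F i) := by
  classical
  induction s using Finset.induction_on with
  | empty => simpa using UpperHalfPlane.qExpansion_zero 1
  | insert i s hi ih =>
    rw [Finset.sum_insert hi, Finset.sum_insert hi,
      (hF i (Finset.mem_insert_self i s)).qExpansion_add
        (sum s fun j hj => hF j (Finset.mem_insert_of_mem hj)),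
      ih fun j hj => hF j (Finset.mem_insert_of_mem hj)]

lemma eq_zero_of_qExpansion_eq_zero (hf : IsGood f) (h : qExpansion 1 f = 0) : f = 0 :=
  (UpperHalfPlane.qExpansion_eq_zero_iff one_pos hf.periodic hf.holo hf.bdd).mp h

end IsGood

/-- Modular forms for a group having `1` as a strict period are good. -/
lemma isGood_of_modularFormClass {F : Type*} [FunLike F ℍ ℂ] {Γ : Subgroup (GL (Fin 2) ℝ)}
    {k : ℤ} [ModularFormClass F Γ k] (hΓ : (1 : ℝ) ∈ Γ.strictPeriods) (f : F) :
    IsGood (f : ℍ → ℂ) :=
  haveI : Fact (IsCusp OnePoint.infty Γ) := ⟨Γ.isCusp_of_mem_strictPeriods one_pos hΓ⟩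
  { periodic := SlashInvariantFormClass.periodic_comp_ofComplex f hΓ
    holo := ModularFormClass.holo f
    bdd := ModularFormClass.bdd_at_infty f }

end Fermat.Agent.S23Converse
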